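import Fermat.Agent.Lib.Cheb.H221.Cyc
import Fermat.Agent.Lib.Cheb.H761.PrimeSum
import Fermat.Agent.Lib.Cheb.H761.PrimeCountBound
import Fermat.Agent.Lib.Cheb.H764.Count
import Fermat.Agent.Lib.Cheb.H943.Frob
import Fermat.Agent.Lib.Cheb.H341.Main
import Fermat.Agent.Lib.Cheb.H223.Cross
import Fermat.Agent.Lib.Cheb.H476.Bridge

/-!
# Tier 2 of CHEB modulo the analytic core (helper221)

Everything except `Spec.DirichletLimitStatement` (AN) is discharged with the theorems already on
main: exact qualitative Chebotarev follows from AN alone.
-/

set_option autoImplicit false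

namespace Fermat.Agent.Lib.Cheb.H221

open Fermat.Agent.Lib.Cheb

/-- Tier 1, finite level (assembled from landed pieces). -/
theorem frobFinite_main : Spec.FrobFiniteStatement :=
  H341.frobFinite H761.primeSum_statement H761.primeCountBound_statement H764.count
    H943.frobStatement

/-- CYC from AN. -/
theorem cyc_of_dirichletLimit (hAN : Spec.DirichletLimitStatement) : Spec.CycStatement :=
  cyc H761.primeSum_statement H764.count H943.frobStatement frobFinite_main hAN

/-- Finite-level exact Chebotarev from AN. -/
theorem chebFinite_of_dirichletLimit (hAN : Spec.DirichletLimitStatement) :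
    Spec.ChebFiniteStatement :=
  H223.cross H943.frobStatement (cyc_of_dirichletLimit hAN)

/-- Prelude-level exact qualitative Chebotarev from AN. -/
theorem chebotarev_of_dirichletLimit (hAN : Spec.DirichletLimitStatement) :
    Spec.ChebotarevStatement :=
  H476.bridge (chebFinite_of_dirichletLimit hAN)

end Fermat.Agent.Lib.Cheb.H221
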