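import Fermat.Agent.Lib.Cheb.H221.Tier2
import Fermat.Agent.Lib.Cheb.H44.DirichletLimit

/-!
# Exact qualitative Chebotarev, unconditional (helper221)

`Spec.ChebotarevStatement`: for every finite extension `E ⊆ ℚ̄` of `ℚ`, every `σ ∈ Gal(ℚ̄/ℚ)` and
every finite set `S` of primes there are a prime `ℓ ∉ S`, a valuation subring `A` of `ℚ̄` over `ℓ`
and a Frobenius element `τ` at `A` (inertia acting trivially on `E`) with `τ = σ` on `E`.

Assembled from AN (`H44.dirichletLimit`), CYC (`H221.cyc`), CROSS (`H223.cross`),
the bridge (`H476.bridge`) and Tier 1.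
-/

set_option autoImplicit false

namespace Fermat.Agent.Lib.Cheb.H221

open Fermat.Agent.Lib.Cheb

/-- (CYC), unconditional. -/
theorem cycStatement : Spec.CycStatement :=
  cyc_of_dirichletLimit H44.dirichletLimit

/-- Finite-level exact qualitative Chebotarev, unconditional. -/
theorem chebFinite : Spec.ChebFiniteStatement :=
  chebFinite_of_dirichletLimit H44.dirichletLimit

/-- **Exact qualitative Chebotarev**, Prelude level, unconditional. -/
theorem chebotarev : Spec.ChebotarevStatement :=
  chebotarev_of_dirichletLimit H44.dirichletLimit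

end Fermat.Agent.Lib.Cheb.H221
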